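import Fermat.Agent.ManinDrinfeld.Identity
import Fermat.Agent.Ribet.EigenvalueBound
import Fermat.Agent.HeckeH1.Par

/-!
# The theorem of Manin and Drinfeld

The periods form a finitely generated group of functionals on `S₂(Γ₀(N))`, stable under the dual of
`T_p`. As `p + 1` is not an eigenvalue of `T_p`, a non-zero multiple of `f ↦ ∫_{i∞}^0 f` is a
period.
-/

set_option autoImplicit false

noncomputable section

namespace FA.ManinDrinfeld

open CongruenceSubgroup ModularCurve ModularCurve.Period FA.Period FA.JTorsion FA.Level Polynomial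
open scoped MatrixGroups

/-- An injective endomorphism of a finite `ℤ`-module has cokernel killed by a non-zero integer. -/
theorem exists_smul_mem_range {W : Type*} [AddCommGroup W] [Module.Finite ℤ W]
    (u : W →ₗ[ℤ] W) (hu : Function.Injective u) :
    ∃ n : ℤ, n ≠ 0 ∧ ∀ x, ∃ y, n • x = u y := by
  have hint : IsIntegral ℤ u := Algebra.IsIntegral.isIntegral u
  set P := minpoly ℤ u with hP
  refine ⟨P.coeff 0, fun h0 => ?_, fun x => ⟨-(aeval u P.divX x), ?_⟩⟩
  · obtain ⟨Q, hQ⟩ := X_dvd_iff.mpr h0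
    have hm : P.Monic := minpoly.monic hint
    have hQm : Q.Monic := by
      rw [hQ] at hm
      exact monic_X.of_mul_monic_left hm
    have hQ0 : aeval u Q = 0 := by
      refine LinearMap.ext fun x => hu ?_
      have h := LinearMap.congr_fun (minpoly.aeval ℤ u) x
      rw [← hP, hQ, map_mul, aeval_X] at h
      simpa using h
    have hdeg := natDegree_le_natDegree (minpoly.min ℤ u hQm hQ0)
    rw [← hP, hQ, natDegree_X_mul hQm.ne_zero] at hdeg
    omega
  · have h := LinearMap.congr_fun (minpoly.aeval ℤ u) x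
    rw [← hP, ← P.X_mul_divX_add, map_add, map_mul, aeval_X, aeval_C] at h
    simp only [LinearMap.add_apply, Module.End.mul_apply, LinearMap.zero_apply,
      Module.algebraMap_end_apply] at h
    rw [map_neg, eq_neg_iff_add_eq_zero, add_comm]
    exact h

variable {N : ℕ} [NeZero N] {p : ℕ}

instance finiteLattice : Module.Finite ℤ (periodDual (N := N)).range := by
  have := FA.HeckeH1.group_fg
  have hΓ : Group.FG (Gamma0 N) := inferInstance
  have : AddGroup.FG (Additive (Gamma0 N)) := inferInstance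
  exact Module.Finite.iff_addGroup_fg.mpr (AddGroup.fg_range (periodDual (N := N)))

/-- The periods of `T_p f` are periods of `f`. -/
theorem exists_periodMap_heckeForm [NeZero p] (hp : p.Prime) (γ : Additive (Gamma0 N)) :
    ∃ δ : Additive (Gamma0 N), ∀ f : CuspForm (Gamma0 N) 2,
      periodMap N (heckeForm N p hp f) γ = periodMap N f δ := by
  obtain ⟨δ, hδ⟩ := exists_periodDual_sum (N := N) Finset.univ
    fun i : RelCos (lvlGamma0 N) (lvlGamma0 (N * p)) => Additive.ofMul (wConj N (conjScale N p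
      ⟨_, relRep_mul_mem (V' := lvlGamma0 (N * p)) (wConj N γ.toMul) i⟩))
  refine ⟨δ, fun f => ?_⟩
  have h := periodMap_heckeForm N p hp f (wConj N γ.toMul)
  rw [wConj_wConj] at h
  refine h.trans ?_
  rw [← periodDual_apply δ, hδ, LinearMap.sum_apply]
  rfl

/-- A functional with Manin's identity at one good prime has a multiple among the periods. -/
theorem exists_smul_eq_period [NeZero p] (hp : p.Prime) (hpN : ¬ p ∣ N)
    (Φ : Module.Dual ℂ (CuspForm (Gamma0 N) 2)) {δ : Additive (Gamma0 N)}
    (hδ : ∀ f : CuspForm (Gamma0 N) 2,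
      Φ (heckeForm N p hp f) = ((p : ℂ) + 1) * Φ f + periodMap N f δ) :
    ∃ (n : ℕ) (γ : Additive (Gamma0 N)), 0 < n ∧
      ∀ f : CuspForm (Gamma0 N) 2, (n : ℂ) * Φ f = periodMap N f γ := by
  have hT : heckeForm N p hp = CuspForm.heckeTLin 2 hp hpN := dif_neg hpN
  set A : Module.End ℂ (CuspForm (Gamma0 N) 2) :=
    heckeForm N p hp - ((p : ℂ) + 1) • 1 with hA
  have hAinj : Function.Injective A := by
    refine (injective_iff_map_eq_zero A).mpr fun f hf => ?_
    rw [hA, LinearMap.sub_apply, LinearMap.smul_apply, Module.End.one_apply, sub_eq_zero, hT] at hf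
    refine FA.Petersson.eq_zero_of_norm_eigen f hp hpN hf ?_
    rw [show (p : ℂ) + 1 = ((p + 1 : ℕ) : ℂ) by push_cast; rfl, Complex.norm_natCast]
    push_cast
    rfl
  have hAsurj : Function.Surjective A := LinearMap.injective_iff_surjective.mp hAinj
  set W := (periodDual (N := N)).range with hW
  have hmem : ∀ φ ∈ W, φ.comp A ∈ W := by
    rintro φ ⟨γ, rfl⟩
    obtain ⟨δ, hδ⟩ := exists_periodMap_heckeForm hp γ
    refine ⟨δ - (p + 1) • γ, LinearMap.ext fun f => ?_⟩
    simp only [map_sub, map_nsmul, LinearMap.sub_apply, LinearMap.smul_apply, periodDual_apply,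
      LinearMap.comp_apply, hA, Module.End.one_apply, periodDual_apply]
    rw [periodMap_smul, AddMonoidHom.smul_apply, hδ f, nsmul_eq_mul, smul_eq_mul]
    push_cast
    ring
  let u : W →ₗ[ℤ] W :=
    { toFun := fun φ => ⟨(φ : Module.Dual ℂ _).comp A, hmem _ φ.2⟩
      map_add' := fun φ ψ => Subtype.ext (LinearMap.add_comp _ _ _)
      map_smul' := fun c φ => Subtype.ext (LinearMap.smul_comp c _ _) }
  have hu : Function.Injective u := fun φ ψ h =>
    Subtype.ext ((LinearMap.cancel_right hAsurj).mp (congrArg Subtype.val h))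
  obtain ⟨n, hn, hdiv⟩ := exists_smul_mem_range u hu
  obtain ⟨⟨_, η, rfl⟩, hy⟩ := hdiv ⟨periodDual δ, ⟨δ, rfl⟩⟩
  have hcomp : n • periodDual δ = (periodDual η).comp A := congrArg Subtype.val hy
  have hmain : ∀ g, (n : ℂ) * Φ g = periodMap N g η := by
    intro g
    obtain ⟨f, rfl⟩ := hAsurj g
    have h := LinearMap.congr_fun hcomp f
    rw [LinearMap.smul_apply, periodDual_apply, LinearMap.comp_apply, periodDual_apply,
      zsmul_eq_mul] at h
    rw [← h, hA, LinearMap.sub_apply, LinearMap.smul_apply, Module.End.one_apply,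
      map_sub, map_smul, hδ f, smul_eq_mul]
    ring
  rcases Int.natAbs_eq n with he | he
  · refine ⟨n.natAbs, η, Int.natAbs_pos.mpr hn, fun f => ?_⟩
    rw [← hmain f]
    conv_rhs => rw [he, Int.cast_natCast]
  · refine ⟨n.natAbs, -η, Int.natAbs_pos.mpr hn, fun f => ?_⟩
    rw [map_neg, ← hmain f]
    conv_rhs => rw [he, Int.cast_neg, Int.cast_natCast]
    ring

/-- **The theorem of Manin and Drinfeld**: the cuspidal divisor `(0) - (∞)` is torsion. -/
theorem exists_smul_toZero_eq_period (N : ℕ) [NeZero N] :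
    ∃ (n : ℕ) (γ : Additive (Gamma0 N)), 0 < n ∧
      ∀ f : CuspForm (Gamma0 N) 2, (n : ℂ) * toZero f = periodMap N f γ := by
  obtain ⟨p, hp1, hp⟩ := Nat.exists_infinite_primes (N + 1)
  have hpN : ¬ p ∣ N := fun h => by
    have := Nat.le_of_dvd (Nat.pos_of_ne_zero (NeZero.ne N)) h
    omega
  have : NeZero p := ⟨hp.ne_zero⟩
  obtain ⟨δ, hδ⟩ := exists_toZero_heckeForm (N := N) hp hpN
  exact exists_smul_eq_period hp hpN toZeroDual hδ

/-- **Manin's theorem**: `(1 + p - a_p) ∫_{i∞}^0 f` is a period of an eigenform. -/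
theorem eigen_mul_toZero_mem_periods [NeZero p] (hp : p.Prime) (hpN : ¬ p ∣ N) :
    ∃ γ : Additive (Gamma0 N), ∀ (f : CuspForm (Gamma0 N) 2) (a : ℂ),
      CuspForm.heckeTLin 2 hp hpN f = a • f → (1 + (p : ℂ) - a) * toZero f = periodMap N f γ := by
  obtain ⟨δ, hδ⟩ := exists_toZero_heckeForm (N := N) hp hpN
  refine ⟨-δ, fun f a hf => ?_⟩
  have h := hδ f
  rw [show heckeForm N p hp = CuspForm.heckeTLin 2 hp hpN from dif_neg hpN, hf, toZero_smul] at h
  rw [map_neg]
  linear_combination -h

end FA.ManinDrinfeld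

end
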