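import Fermat.Agent.ManinDrinfeld.Drinfeld
import Mathlib.NumberTheory.LSeries.PrimesInAP

/-!
# The theorem of Manin and Drinfeld at every cusp

For a prime `p ≡ 1 (mod N)` the `p + 1` cusps attached by `T_p` to a cusp are all equivalent to it
under `Γ₀(N)`, so Manin's identity holds at every cusp.
-/

set_option autoImplicit false

noncomputable section

namespace FA.ManinDrinfeld

open UpperHalfPlane hiding I
open CongruenceSubgroup Filter ModularCurve ModularCurve.Period ModularGroup FA.Period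
open FA.JTorsion ModularForm
open scoped MatrixGroups Topology

variable {N : ℕ} [NeZero N]

/-- `∫_{i∞}^{δ∞} f(τ) dτ`. -/
def toCusp (δ : SL(2, ℤ)) (f : CuspForm (Gamma0 N) 2) : ℂ :=
  limUnder atImInfty fun w : ℍ => prim f (δ • w)

theorem tendsto_toCusp (δ : SL(2, ℤ)) (f : CuspForm (Gamma0 N) 2) :
    Tendsto (fun w : ℍ => prim f (δ • w)) atImInfty (𝓝 (toCusp δ f)) := by
  obtain ⟨L, hL⟩ := exists_tendsto_comp_smul (coe_mem_cuspForms f) (isPrimitive_prim f) δ
  rwa [toCusp, hL.limUnder_eq]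

theorem prim_add (f g : CuspForm (Gamma0 N) 2) : prim (f + g) = prim f + prim g :=
  primitive_unique (isPrimitive_prim _) ((isPrimitive_prim f).add (isPrimitive_prim g))
    (tendsto_prim _) (by simpa [Pi.add_def] using (tendsto_prim f).add (tendsto_prim g))

theorem prim_smul (c : ℂ) (f : CuspForm (Gamma0 N) 2) : prim (c • f) = c • prim f :=
  primitive_unique (isPrimitive_prim _) ((isPrimitive_prim f).const_smul c) (tendsto_prim _)
    (by simpa [Pi.smul_def] using (tendsto_prim f).const_mul c)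

/-- `f ↦ ∫_{i∞}^{δ∞} f(τ) dτ` as a functional. -/
def toCuspDual (δ : SL(2, ℤ)) : Module.Dual ℂ (CuspForm (Gamma0 N) 2) where
  toFun := toCusp δ
  map_add' f g := by
    refine tendsto_nhds_unique (tendsto_toCusp δ (f + g)) ?_
    simpa [prim_add] using (tendsto_toCusp δ f).add (tendsto_toCusp δ g)
  map_smul' c f := by
    refine tendsto_nhds_unique (tendsto_toCusp δ (c • f)) ?_
    simpa [prim_smul] using (tendsto_toCusp δ f).const_mul c

theorem toCuspDual_apply (δ : SL(2, ℤ)) (f : CuspForm (Gamma0 N) 2) :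
    toCuspDual δ f = toCusp δ f := rfl

variable {p : ℕ} [NeZero p]

omit [NeZero N] in
/-- An upper triangular matrix of determinant `p ≡ 1 (mod N)`, congruent to a translation, moves a
cusp to an equivalent one. -/
theorem exists_moved_cusp (hp : p.Prime) (hp1 : (p : ZMod N) = 1) {m₀ m₁ m₃ : ℕ}
    (hdet : m₀ * m₃ = p) (h₃ : (m₃ : ZMod N) = 1) (δ : SL(2, ℤ))
    (σ : ℍ → ℍ) (hσ : ∀ z : ℍ, ((σ z : ℍ) : ℂ) = ((m₀ : ℂ) * z + m₁) / m₃) :
    ∃ (γ : Gamma0 N) (φ : ℍ → ℍ), Tendsto φ atImInfty atImInfty ∧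
      ∀ w : ℍ, σ (δ • w) = (γ : SL(2, ℤ)) • δ • φ w := by
  obtain ⟨a, ha⟩ : ∃ a, a = δ.1 0 0 := ⟨_, rfl⟩
  obtain ⟨b, hb⟩ : ∃ b, b = δ.1 0 1 := ⟨_, rfl⟩
  obtain ⟨c, hc⟩ : ∃ c, c = δ.1 1 0 := ⟨_, rfl⟩
  obtain ⟨d, hd⟩ : ∃ d, d = δ.1 1 1 := ⟨_, rfl⟩
  have hδ : a * d - b * c = 1 := by rw [ha, hb, hc, hd, ← Matrix.det_fin_two]; exact δ.2
  set A : ℤ := m₀ * a + m₁ * c with hA
  set B : ℤ := m₀ * b + m₁ * d with hB
  have hdetM : A * ((m₃ : ℤ) * d) - B * ((m₃ : ℤ) * c) = p := by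
    have h : ((m₀ : ℤ) * m₃) = p := by exact_mod_cast hdet
    rw [hA, hB]
    linear_combination (m₀ : ℤ) * m₃ * hδ + h
  have hg0 : 0 < Int.gcd A ((m₃ : ℤ) * c) := Nat.pos_of_ne_zero fun h => by
    obtain ⟨h1, h2⟩ := Int.gcd_eq_zero_iff.mp h
    rw [h1, h2] at hdetM
    simp at hdetM
    exact NeZero.ne p (by exact_mod_cast hdetM.symm)
  obtain ⟨x, y, hxy, hAx, hCy⟩ := Int.exists_gcd_one hg0
  obtain ⟨u, v, huv⟩ := Int.isCoprime_iff_gcd_eq_one.mpr hxy
  obtain ⟨g, hg⟩ : ∃ g, g = Int.gcd A ((m₃ : ℤ) * c) := ⟨_, rfl⟩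
  rw [← hg] at hAx hCy hg0
  obtain ⟨e, he⟩ : ∃ e, e = x * ((m₃ : ℤ) * d) - y * B := ⟨_, rfl⟩
  have hge : (g : ℤ) * e = p := by
    rw [he]
    linear_combination hdetM - ((m₃ : ℤ) * d) * hAx + B * hCy
  have he0 : 0 < e := (mul_pos_iff_of_pos_left (by exact_mod_cast hg0 : (0 : ℤ) < g)).mp
    (by rw [hge]; exact_mod_cast hp.pos)
  have hgdvd : g ∣ p := Int.natCast_dvd_natCast.mp ⟨e, hge.symm⟩
  obtain ⟨hgN, heN⟩ : ((g : ℕ) : ZMod N) = 1 ∧ ((e : ℤ) : ZMod N) = 1 := by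
    rcases hp.eq_one_or_self_of_dvd g hgdvd with h | h
    · refine ⟨by rw [h, Nat.cast_one], ?_⟩
      rw [h, Nat.cast_one, one_mul] at hge
      rw [hge, Int.cast_natCast, hp1]
    · refine ⟨by rw [h, hp1], ?_⟩
      rw [h] at hge
      have : e = 1 := mul_left_cancel₀ (Int.natCast_ne_zero.mpr hp.ne_zero)
        (hge.trans (mul_one _).symm)
      rw [this, Int.cast_one]
  set β : ℤ := u * B + v * ((m₃ : ℤ) * d) with hβ
  have hB' : x * β - v * e = B := by
    rw [hβ, he]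
    linear_combination B * huv
  have hD' : y * β + u * e = (m₃ : ℤ) * d := by
    rw [hβ, he]
    linear_combination ((m₃ : ℤ) * d) * huv
  set δ' : SL(2, ℤ) := ⟨!![x, -v; y, u], by
    rw [Matrix.det_fin_two_of]; linear_combination huv⟩ with hδ'
  set γ₀ : SL(2, ℤ) := δ' * T ^ β * δ⁻¹ with hγ₀
  have hmem : γ₀ ∈ Gamma0 N := by
    rw [Gamma0_mem]
    have e10 : γ₀.1 1 0 = y * d - (y * β + u) * c := by
      rw [hγ₀, hc, hd]
      simp [hδ', Matrix.SpecialLinearGroup.coe_inv, Matrix.adjugate_fin_two, coe_T_zpow,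
        Matrix.mul_apply, Fin.sum_univ_two]
      ring
    rw [e10]
    have hy : ((y : ℤ) : ZMod N) = (c : ZMod N) := by
      have h := congrArg (fun k : ℤ => (k : ZMod N)) hCy
      push_cast at h
      rw [h₃, one_mul, hgN, mul_one] at h
      exact h.symm
    have hu : ((y : ℤ) : ZMod N) * β + u = (d : ZMod N) := by
      have h := congrArg (fun k : ℤ => (k : ZMod N)) hD'
      push_cast at h
      rwa [h₃, one_mul, heN, mul_one] at h
    push_cast
    rw [hu, hy]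
    ring
  refine ⟨⟨γ₀, hmem⟩, fun w => ofComplex (((g : ℂ) * w + β) / e - β), ?_, fun w => ?_⟩
  · have him : Tendsto UpperHalfPlane.im atImInfty atTop := tendsto_comap
    refine tendsto_comap_iff.mpr ?_
    have hpos : (0 : ℝ) < (g : ℝ) / e :=
      div_pos (Nat.cast_pos.mpr hg0) (Int.cast_pos.mpr he0)
    refine (him.const_mul_atTop hpos).congr fun w => ?_
    have hi : ((((g : ℂ) * w + β) / e - β)).im = (g : ℝ) / e * w.im := by
      simp [Complex.div_intCast_im]
      ring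
    rw [Function.comp_apply, ofComplex_apply_of_im_pos (by rw [hi]; exact mul_pos hpos w.im_pos)]
    exact hi.symm
  · have hpos : 0 < ((((g : ℂ) * w + β) / e - β)).im := by
      simp [Complex.div_intCast_im]
      exact div_pos (mul_pos (Nat.cast_pos.mpr hg0) w.im_pos) (Int.cast_pos.mpr he0)
    simp only [ofComplex_apply_of_im_pos hpos]
    set z : ℍ := ⟨_, hpos⟩
    show _ = γ₀ • δ • z
    rw [hγ₀, mul_smul, inv_smul_smul, mul_smul]
    obtain ⟨h1, h1'⟩ := FA.JTorsion.coe_smul_of_eq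
      (show (δ' : Matrix (Fin 2) (Fin 2) ℤ) = !![x, -v; y, u] from rfl) (T ^ β • z)
    obtain ⟨h2, h2'⟩ := FA.JTorsion.coe_smul_of_eq (g := δ) (a := a) (b := b) (c := c) (d := d)
      (by rw [ha, hb, hc, hd]; exact Matrix.eta_fin_two _) w
    apply UpperHalfPlane.ext
    rw [hσ, h1, h2]
    have hz : ((T ^ β • z : ℍ) : ℂ) = ((g : ℂ) * w + β) / e := by
      rw [coe_T_zpow_smul]
      show ((g : ℂ) * w + β) / e - β + β = _
      ring
    rw [hz] at h1' ⊢
    have he' : (e : ℂ) ≠ 0 := Int.cast_ne_zero.mpr he0.ne'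
    have hm₃ : (m₃ : ℂ) ≠ 0 := Nat.cast_ne_zero.mpr fun h => by
      rw [h, mul_zero] at hdet; exact hp.ne_zero hdet.symm
    have eA : (m₀ : ℂ) * a + m₁ * c = x * g := by
      rw [hA] at hAx
      exact_mod_cast hAx
    have eC : (m₃ : ℂ) * c = y * g := by exact_mod_cast hCy
    have eB : (x : ℂ) * β - v * e = m₀ * b + m₁ * d := by
      rw [hB] at hB'
      exact_mod_cast hB'
    have eD : (y : ℂ) * β + u * e = m₃ * d := by exact_mod_cast hD'
    have hnum : (x : ℂ) * (((g : ℂ) * w + β) / e) + ((-v : ℤ) : ℂ) =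
        (((m₀ : ℂ) * a + m₁ * c) * w + (m₀ * b + m₁ * d)) / e := by
      rw [eA, ← eB]
      field_simp
      push_cast
      ring
    have hden : (y : ℂ) * (((g : ℂ) * w + β) / e) + (u : ℂ) =
        (m₃ : ℂ) * ((c : ℂ) * w + d) / e := by
      rw [mul_add, ← mul_assoc (m₃ : ℂ), eC, ← eD]
      field_simp
      ring
    rw [hnum, hden, div_div_div_cancel_right₀ he', mul_div_assoc', div_add' _ _ _ h2', div_div,
      mul_comm ((c : ℂ) * w + d) (m₃ : ℂ)]
    refine congrArg (· / ((m₃ : ℂ) * ((c : ℂ) * w + d))) ?_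
    ring

/-- **Manin's identity at every cusp**, for `p ≡ 1 (mod N)`. -/
theorem exists_toCusp_heckeForm (hp : p.Prime) (hpN : ¬ p ∣ N) (hp1 : (p : ZMod N) = 1)
    (δ : SL(2, ℤ)) : ∃ ε : Additive (Gamma0 N), ∀ f : CuspForm (Gamma0 N) 2,
      toCusp δ (heckeForm N p hp f) = ((p : ℂ) + 1) * toCusp δ f + periodMap N f ε := by
  have hmove : ∀ x : Option (Fin p), ∃ (γ : Gamma0 N) (φ : ℍ → ℍ),
      Tendsto φ atImInfty atImInfty ∧
        ∀ w : ℍ, heckePt p x (δ • w) = (γ : SL(2, ℤ)) • δ • φ w := by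
    rintro (_ | j)
    · exact exists_moved_cusp hp hp1 (m₀ := p) (m₁ := 0) (m₃ := 1) (mul_one p) (Nat.cast_one) δ _
        fun z => by simp [heckePt, coe_heckeDiagMatrix_smul hp.ne_zero]
    · exact exists_moved_cusp hp hp1 (m₀ := 1) (m₁ := (j : ℕ)) (m₃ := p) (one_mul p) hp1 δ _
        fun z => by simp [heckePt, coe_heckeMatrix_smul hp.ne_zero]
  choose γ φ hφ hγ using hmove
  obtain ⟨ε, hε⟩ := exists_periodDual_sum Finset.univ fun x => Additive.ofMul (γ x)
  refine ⟨ε, fun f => ?_⟩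
  have hidx : heckeIdx N p = Finset.univ := if_neg hpN
  have hG := isPrimitive_heckeForm N p hp (isPrimitive_prim f)
  rw [hidx] at hG
  have hpp : (0 : ℝ) < p := Nat.cast_pos.mpr hp.pos
  have him : Tendsto UpperHalfPlane.im atImInfty atTop := tendsto_comap
  have hG0 : Tendsto (fun z => ∑ x : Option (Fin p), prim f (heckePt p x z)) atImInfty (𝓝 0) := by
    have h : Tendsto (fun z => ∑ x : Option (Fin p), prim f (heckePt p x z)) atImInfty
        (𝓝 (∑ _x : Option (Fin p), (0 : ℂ))) := by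
      refine tendsto_finsetSum _ fun x _ => (tendsto_prim f).comp ?_
      refine tendsto_comap_iff.mpr ?_
      cases x with
      | none =>
        simpa [Function.comp_def, heckePt, FA.Petersson.im_heckeDiagMatrix_smul hp.ne_zero] using
          him.const_mul_atTop hpp
      | some j =>
        simpa [Function.comp_def, heckePt, FA.Petersson.im_heckeMatrix_smul hp.ne_zero] using
          him.atTop_div_const hpp
    simpa using h
  have h1 : Tendsto (fun w : ℍ => prim (heckeForm N p hp f) (δ • w)) atImInfty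
      (𝓝 (∑ x : Option (Fin p), (toCusp δ f + periodMap N f (Additive.ofMul (γ x))))) := by
    rw [primitive_unique (isPrimitive_prim _) hG (tendsto_prim _) hG0]
    refine tendsto_finsetSum _ fun x _ => ?_
    refine (((tendsto_toCusp δ f).comp (hφ x)).add_const _).congr fun w => ?_
    simp only [Function.comp_apply, hγ x w,
      periodMap_apply f (isPrimitive_prim f) (γ x) (δ • φ x w)]
    ring
  rw [tendsto_nhds_unique (tendsto_toCusp δ _) h1]
  have hsum := LinearMap.congr_fun hε f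
  simp only [periodDual_apply, LinearMap.sum_apply] at hsum
  rw [Finset.sum_add_distrib, ← hsum]
  simp

omit [NeZero p] in
/-- **Manin and Drinfeld at every cusp**. -/
theorem exists_smul_toCusp_eq_period (δ : SL(2, ℤ)) :
    ∃ (n : ℕ) (γ : Additive (Gamma0 N)), 0 < n ∧
      ∀ f : CuspForm (Gamma0 N) 2, (n : ℂ) * toCusp δ f = periodMap N f γ := by
  obtain ⟨p, hpN', hp, hp1⟩ := Nat.forall_exists_prime_gt_and_eq_mod (q := N) (a := 1) isUnit_one N
  have : NeZero p := ⟨hp.ne_zero⟩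
  have hpN : ¬ p ∣ N := fun h => by
    have := Nat.le_of_dvd (Nat.pos_of_ne_zero (NeZero.ne N)) h
    omega
  obtain ⟨ε, hε⟩ := exists_toCusp_heckeForm hp hpN hp1 δ
  exact exists_smul_eq_period hp hpN (toCuspDual δ) hε

omit [NeZero p] in
/-- The vertical line above a rational number tends to the integral up to that cusp, a multiple of
which is a period. -/
theorem exists_tendsto_vertical (r : ℚ) :
    ∃ (δ : SL(2, ℤ)) (n : ℕ) (γ : Additive (Gamma0 N)), 0 < n ∧
      ∀ f : CuspForm (Gamma0 N) 2, (n : ℂ) * toCusp δ f = periodMap N f γ ∧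
        Tendsto (fun t : ℝ => prim f (ofComplex ((r : ℂ) + Complex.I * (t : ℂ)))) (𝓝[>] 0)
          (𝓝 (toCusp δ f)) := by
  obtain ⟨u, v, huv⟩ := (Int.isCoprime_iff_gcd_eq_one.mpr r.reduced :
    IsCoprime r.num (r.den : ℤ))
  set δ : SL(2, ℤ) := ⟨!![r.num, -v; (r.den : ℤ), u], by
    rw [Matrix.det_fin_two_of]; linear_combination huv⟩ with hδ
  obtain ⟨n, γ, hn, h⟩ := exists_smul_toCusp_eq_period (N := N) δ
  refine ⟨δ, n, γ, hn, fun f => ⟨h f, ?_⟩⟩
  have hd : (0 : ℝ) < r.den := Nat.cast_pos.mpr r.den_pos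
  let w : ℝ → ℍ := fun t =>
    ofComplex (-(u : ℂ) / r.den + Complex.I * ((((r.den : ℝ) ^ 2 * t)⁻¹ : ℝ)))
  have hXim : ∀ X : ℝ, (-(u : ℂ) / r.den + Complex.I * (X : ℂ)).im = X := fun X => by
    simp [Complex.div_natCast_im]
  have hwim : ∀ t : ℝ, 0 < t →
      0 < (-(u : ℂ) / r.den + Complex.I * ((((r.den : ℝ) ^ 2 * t)⁻¹ : ℝ))).im := fun t ht => by
    rw [hXim]
    positivity
  have hw : Tendsto w (𝓝[>] 0) atImInfty := by
    refine tendsto_comap_iff.mpr ((tendsto_inv_nhdsGT_zero.const_mul_atTop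
      (inv_pos.mpr (pow_pos hd 2))).congr' ?_)
    filter_upwards [self_mem_nhdsWithin] with t (ht : 0 < t)
    simp only [w, Function.comp_apply, ofComplex_apply_of_im_pos (hwim t ht)]
    show _ = (-(u : ℂ) / r.den + Complex.I * ((((r.den : ℝ) ^ 2 * t)⁻¹ : ℝ))).im
    rw [hXim, mul_inv]
  refine ((tendsto_toCusp δ f).comp hw).congr' ?_
  filter_upwards [self_mem_nhdsWithin] with t (ht : 0 < t)
  rw [Function.comp_apply]
  refine congrArg (prim f) (UpperHalfPlane.ext ?_)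
  obtain ⟨h1, h1'⟩ := FA.JTorsion.coe_smul_of_eq
    (show (δ : Matrix (Fin 2) (Fin 2) ℤ) = !![r.num, -v; (r.den : ℤ), u] from rfl) (w t)
  rw [h1, ofComplex_apply_of_im_pos (by simpa using ht)]
  have hwc : ((w t : ℍ) : ℂ) = -(u : ℂ) / r.den + Complex.I * ((((r.den : ℝ) ^ 2 * t)⁻¹ : ℝ)) := by
    simp only [w, ofComplex_apply_of_im_pos (hwim t ht)]
  show _ = (r : ℂ) + Complex.I * (t : ℂ)
  rw [hwc] at h1' ⊢
  rw [div_eq_iff h1', Rat.cast_def]
  have hdc : (r.den : ℂ) ≠ 0 := Nat.cast_ne_zero.mpr r.den_ne_zero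
  have ht' : (t : ℂ) ≠ 0 := Complex.ofReal_ne_zero.mpr ht.ne'
  have huv' : (u : ℂ) * r.num + v * r.den = 1 := by exact_mod_cast huv
  push_cast
  field_simp
  linear_combination -(t : ℂ) * (r.den : ℂ) * huv' - (t : ℂ) * (r.den : ℂ) * Complex.I_sq

end FA.ManinDrinfeld

end
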