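import Fermat.Agent.ManinDrinfeld.ToZero

/-!
# Manin's identity

For a prime `p ∤ N` the number `toZero (T_p f) - (p + 1) toZero f` is a period of `f`, of a path
which does not depend on `f`: the cusps `j / p` are equivalent to `0` under `Γ₀(N)`.
-/

set_option autoImplicit false

noncomputable section

namespace FA.ManinDrinfeld

open UpperHalfPlane hiding I
open CongruenceSubgroup Filter ModularCurve ModularCurve.Period ModularGroup FA.Period
open FA.JTorsion ModularForm
open scoped MatrixGroups Topology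

variable {N : ℕ} [NeZero N] {p : ℕ} [NeZero p]

theorem coe_S_smul (z : ℍ) : ((S • z : ℍ) : ℂ) = -(z : ℂ)⁻¹ := by
  rw [UpperHalfPlane.modular_S_smul, UpperHalfPlane.coe_mk]
  simp [inv_neg]

theorem coe_T_zpow_smul (m : ℤ) (z : ℍ) : ((T ^ m • z : ℍ) : ℂ) = (z : ℂ) + m := by
  rw [modular_T_zpow_smul]
  simp [add_comm]

/-- `p · (-1/w) = -1 / (w/p)`. -/
theorem diag_smul_S (w : ℍ) :
    heckeDiagMatrix p • (S • w) = S • (heckeMatrix p 0 • w) := by
  have hp := NeZero.ne p
  apply UpperHalfPlane.ext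
  simp only [coe_S_smul, coe_heckeDiagMatrix_smul hp, coe_heckeMatrix_smul hp, Nat.cast_zero,
    add_zero, inv_div]
  ring

/-- `(-1/w)/p = -1 / (p w)`. -/
theorem zero_smul_S (w : ℍ) :
    heckeMatrix p 0 • (S • w) = S • (heckeDiagMatrix p • w) := by
  have hp := NeZero.ne p
  apply UpperHalfPlane.ext
  simp only [coe_S_smul, coe_heckeDiagMatrix_smul hp, coe_heckeMatrix_smul hp, Nat.cast_zero,
    add_zero, mul_inv]
  ring

omit [NeZero N] in
/-- The cusp `j / p` is equivalent to `0` under `Γ₀(N)`. -/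
theorem exists_mem_smul_S (hp : p.Prime) (hpN : ¬ p ∣ N) {j : ℕ} (hj : 0 < j) (hjp : j < p) :
    ∃ (γ : Gamma0 N) (m : ℤ), ∀ w : ℍ,
      heckeMatrix p j • (S • w) = (γ : SL(2, ℤ)) • S • (heckeMatrix p 0 • (T ^ m • w)) := by
  have hpj : ¬ p ∣ j := fun h => by
    have := Nat.le_of_dvd hj h
    omega
  have hco : IsCoprime (p : ℤ) ((j : ℤ) * N) := by
    rw [← Nat.cast_mul, Int.isCoprime_iff_gcd_eq_one, Int.gcd_natCast_natCast]
    exact (hp.coprime_iff_not_dvd).2 fun h => (hp.dvd_mul.1 h).elim hpj hpN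
  obtain ⟨a, c, hac⟩ := hco
  -- `a p + c j N = 1`
  set γ : Gamma0 N := ⟨⟨!![a, (j : ℤ); -(c * N), (p : ℤ)], by
    rw [Matrix.det_fin_two_of]; linear_combination hac⟩, by
    rw [Gamma0_mem]; simp⟩ with hγ
  refine ⟨γ, -(c * N), fun w => ?_⟩
  set y : ℍ := S • (heckeMatrix p 0 • (T ^ (-(c * N)) • w)) with hy
  have e : ((γ : SL(2, ℤ)) : Matrix (Fin 2) (Fin 2) ℤ) = !![a, (j : ℤ); -(c * N), (p : ℤ)] := rfl
  obtain ⟨h1, h1'⟩ := FA.JTorsion.coe_smul_of_eq e y
  apply UpperHalfPlane.ext
  have hp0 : (p : ℂ) ≠ 0 := Nat.cast_ne_zero.mpr (NeZero.ne p)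
  have hw : (w : ℂ) ≠ 0 := w.ne_zero
  have hyc : (y : ℂ) = -(p / ((w : ℂ) - c * N)) := by
    rw [hy, coe_S_smul, coe_heckeMatrix_smul (NeZero.ne p), coe_T_zpow_smul]
    push_cast
    rw [add_zero, inv_div]
    ring
  have hwm : (w : ℂ) - c * N ≠ 0 := by
    intro h
    have h' := congrArg Complex.im h
    simp at h'
    exact w.im_ne_zero h'
  have hac' : (a : ℂ) * p + c * (j * N) = 1 := by exact_mod_cast hac
  rw [h1, coe_heckeMatrix_smul (NeZero.ne p), coe_S_smul]
  rw [hyc] at h1' ⊢
  push_cast at h1' ⊢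
  rw [eq_div_iff h1']
  field_simp
  linear_combination (w : ℂ) * hac'

/-- The limit at each of the `p + 1` cusps. -/
theorem exists_tendsto_heckePt (hp : p.Prime) (hpN : ¬ p ∣ N) (x : Option (Fin p)) :
    ∃ γ : Gamma0 N, ∀ f : CuspForm (Gamma0 N) 2,
      Tendsto (fun w : ℍ => prim f (heckePt p x (S • w))) atImInfty
        (𝓝 (toZero f + periodMap N f (Additive.ofMul γ))) := by
  have hpp : (0 : ℝ) < p := Nat.cast_pos.mpr hp.pos
  have him : Tendsto UpperHalfPlane.im atImInfty atTop := tendsto_comap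
  have hdiv : Tendsto (fun w : ℍ => heckeMatrix p 0 • w) atImInfty atImInfty := by
    refine tendsto_comap_iff.mpr ?_
    simpa [Function.comp_def, FA.Petersson.im_heckeMatrix_smul hp.ne_zero] using
      him.atTop_div_const hpp
  have hmul : Tendsto (fun w : ℍ => heckeDiagMatrix p • w) atImInfty atImInfty := by
    refine tendsto_comap_iff.mpr ?_
    simpa [Function.comp_def, FA.Petersson.im_heckeDiagMatrix_smul hp.ne_zero] using
      him.const_mul_atTop hpp
  have hlim : ∀ f : CuspForm (Gamma0 N) 2,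
      Tendsto (fun w : ℍ => prim f (S • w)) atImInfty (𝓝 (toZero f)) := fun f =>
    tendsto_toZero f (isPrimitive_prim f) (tendsto_prim f)
  rcases x with _ | ⟨j, hj⟩
  · refine ⟨1, fun f => ?_⟩
    simp only [ofMul_one, map_zero, add_zero, heckePt, diag_smul_S]
    exact (hlim f).comp hdiv
  · rcases Nat.eq_zero_or_pos j with rfl | hj0
    · refine ⟨1, fun f => ?_⟩
      simp only [ofMul_one, map_zero, add_zero, heckePt, zero_smul_S]
      exact (hlim f).comp hmul
    · obtain ⟨γ, m, hγ⟩ := exists_mem_smul_S hp hpN hj0 hj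
      have hT : Tendsto (fun w : ℍ => T ^ m • w) atImInfty atImInfty := by
        refine tendsto_comap_iff.mpr ?_
        refine him.congr fun w => ?_
        have h := congrArg Complex.im (coe_T_zpow_smul m w)
        simpa using h.symm
      refine ⟨γ, fun f => ?_⟩
      refine ((hlim f).comp (hdiv.comp hT)).add_const _ |>.congr fun w => ?_
      simp only [Function.comp_apply, heckePt, hγ w,
        periodMap_apply f (isPrimitive_prim f) γ (S • heckeMatrix p 0 • T ^ m • w)]
      ring

/-- **Manin's identity**. -/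
theorem exists_toZero_heckeForm (hp : p.Prime) (hpN : ¬ p ∣ N) :
    ∃ δ : Additive (Gamma0 N), ∀ f : CuspForm (Gamma0 N) 2,
      toZero (heckeForm N p hp f) = ((p : ℂ) + 1) * toZero f + periodMap N f δ := by
  choose γ hγ using exists_tendsto_heckePt (N := N) hp hpN
  obtain ⟨δ, hδ⟩ := exists_periodDual_sum Finset.univ fun x => Additive.ofMul (γ x)
  refine ⟨δ, fun f => ?_⟩
  have hidx : heckeIdx N p = Finset.univ := if_neg hpN
  have hG := isPrimitive_heckeForm N p hp (isPrimitive_prim f)
  rw [hidx] at hG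
  have hpp : (0 : ℝ) < p := Nat.cast_pos.mpr hp.pos
  have him : Tendsto UpperHalfPlane.im atImInfty atTop := tendsto_comap
  have hG0 : Tendsto (fun z => ∑ x : Option (Fin p), prim f (heckePt p x z)) atImInfty (𝓝 0) := by
    have : Tendsto (fun z => ∑ x : Option (Fin p), prim f (heckePt p x z)) atImInfty
        (𝓝 (∑ _x : Option (Fin p), (0 : ℂ))) := by
      refine tendsto_finsetSum _ fun x _ => (tendsto_prim f).comp ?_
      refine tendsto_comap_iff.mpr ?_
      cases x with
      | none =>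
        simpa [Function.comp_def, heckePt, FA.Petersson.im_heckeDiagMatrix_smul hp.ne_zero] using
          him.const_mul_atTop hpp
      | some j =>
        simpa [Function.comp_def, heckePt, FA.Petersson.im_heckeMatrix_smul hp.ne_zero] using
          him.atTop_div_const hpp
    simpa using this
  rw [toZero_eq hG hG0 (tendsto_finsetSum _ fun x _ => hγ x f)]
  have hsum := LinearMap.congr_fun hδ f
  simp only [periodDual_apply, LinearMap.sum_apply] at hsum
  rw [Finset.sum_add_distrib, ← hsum]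
  simp

end FA.ManinDrinfeld

end
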