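import Fermat.Agent.ManinDrinfeld.ToZero
import Fermat.Agent.Root.CentralValueFormula

/-!
# The functional `toZero` as an integral along the imaginary axis
-/

set_option autoImplicit false

noncomputable section

namespace FA.ManinDrinfeld

open UpperHalfPlane hiding I
open Complex CongruenceSubgroup Filter MeasureTheory Set FA.Period
open scoped MatrixGroups Topology

variable {N : ℕ} [NeZero N]

/-- `∫_{i∞}^0 f = -i ∫_0^∞ f(it) dt`. -/
theorem toZero_eq_integral (f : CuspForm (Gamma0 N) 2) :
    toZero f = -I * ∫ t in Ioi (0 : ℝ), f (ofComplex (I * (t : ℂ))) := by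
  classical
  set F := prim f
  set h : ℝ → ℂ := fun t => if t ≤ 0 then toZero f else F (ofComplex (I * (t : ℂ))) with hh
  have hpos : ∀ t : ℝ, 0 < t → h t = F (ofComplex (I * (t : ℂ))) := fun t ht =>
    if_neg (not_le.mpr ht)
  have him : ∀ t : ℝ, 0 < t → (ofComplex (I * (t : ℂ))).im = t := fun t ht => by
    rw [ofComplex_apply_of_im_pos (by simpa using ht)]
    simp [UpperHalfPlane.im]
  have hderiv : ∀ x ∈ Ioi (0 : ℝ), HasDerivAt h (I * f (ofComplex (I * (x : ℂ)))) x := by
    intro x hx
    have hx' : 0 < (I * (x : ℂ)).im := by simpa using hx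
    have h1 : HasDerivAt (F ∘ ofComplex) (f (ofComplex (I * (x : ℂ)))) (I * (x : ℂ)) := by
      rw [ofComplex_apply_of_im_pos hx']
      exact isPrimitive_prim f ⟨_, hx'⟩
    have h2 := h1.comp x ((hasDerivAt_id x).ofReal_comp.const_mul I)
    simp only [Complex.ofReal_one, mul_one] at h2
    rw [mul_comm] at h2
    refine h2.congr_of_eventuallyEq ?_
    filter_upwards [Ioi_mem_nhds (show (0 : ℝ) < x from hx)] with t ht
    exact hpos t ht
  have hint : IntegrableOn (fun t : ℝ => f (ofComplex (I * (t : ℂ)))) (Ioi 0) := by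
    have h := ((CuspForm.isStrongFEPair (Γ := (Gamma0 N : Subgroup (GL (Fin 2) ℝ))) (k := 2)
      two_pos f).hasMellin 1).1
    simpa [MellinConvergent] using h
  have htop : Tendsto h atTop (𝓝 0) := by
    have h1 : Tendsto (fun t : ℝ => ofComplex (I * (t : ℂ))) atTop atImInfty := by
      refine tendsto_comap_iff.mpr (tendsto_id.congr' ?_)
      filter_upwards [Ioi_mem_atTop 0] with t ht
      exact (him t ht).symm
    refine ((tendsto_prim f).comp h1).congr' ?_
    filter_upwards [Ioi_mem_atTop 0] with t ht
    exact (hpos t ht).symm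
  have hcont : ContinuousWithinAt h (Ici 0) 0 := by
    rw [← continuousWithinAt_Ioi_iff_Ici, ContinuousWithinAt,
      show h 0 = toZero f from if_pos le_rfl]
    have h1 : Tendsto (fun t : ℝ => ofComplex (I * ((t⁻¹ : ℝ) : ℂ))) (𝓝[>] 0) atImInfty := by
      refine tendsto_comap_iff.mpr (tendsto_inv_nhdsGT_zero.congr' ?_)
      filter_upwards [self_mem_nhdsWithin] with t ht
      exact (him _ (inv_pos.mpr ht)).symm
    refine ((tendsto_toZero f (isPrimitive_prim f) (tendsto_prim f)).comp h1).congr' ?_
    filter_upwards [self_mem_nhdsWithin] with t (ht : 0 < t)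
    rw [hpos t ht, Function.comp_apply]
    refine congrArg F (UpperHalfPlane.ext ?_)
    rw [UpperHalfPlane.modular_S_smul, UpperHalfPlane.coe_mk,
      ofComplex_apply_of_im_pos (by simpa using inv_pos.mpr ht),
      ofComplex_apply_of_im_pos (by simpa using ht)]
    simp [mul_comm]
  have hmain := integral_Ioi_of_hasDerivAt_of_tendsto hcont hderiv (hint.const_mul I) htop
  rw [show h 0 = toZero f from if_pos le_rfl, zero_sub, integral_const_mul] at hmain
  linear_combination hmain

end FA.ManinDrinfeld

end
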