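import Fermat.Agent.JTorsion.Periods
import Fermat.Agent.Petersson.HeckeBound

/-!
# The integral from `i∞` to the cusp `0` of a cusp form of weight two

`toZero f` is the limit at the cusp `0` of the primitive of `f` vanishing at `i∞`; it is linear in
`f`.
-/

set_option autoImplicit false

noncomputable section

namespace FA.ManinDrinfeld

open UpperHalfPlane hiding I
open CongruenceSubgroup Filter ModularCurve ModularCurve.Period ModularGroup FA.Period
open scoped MatrixGroups Topology

variable {N : ℕ} [NeZero N]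

/-- The primitive of a cusp form vanishing at `i∞`. -/
def prim (f : CuspForm (Gamma0 N) 2) : ℍ → ℂ :=
  (exists_hasEquivariantPrimitive f).choose

/-- `∫_{i∞}^0 f(τ) dτ`. -/
def toZero (f : CuspForm (Gamma0 N) 2) : ℂ :=
  limUnder atImInfty fun w : ℍ => prim f (S • w)

theorem isPrimitive_prim (f : CuspForm (Gamma0 N) 2) : IsPrimitive (prim f) ⇑f :=
  (exists_hasEquivariantPrimitive f).choose_spec.1

theorem tendsto_prim (f : CuspForm (Gamma0 N) 2) : Tendsto (prim f) atImInfty (𝓝 0) :=
  (exists_hasEquivariantPrimitive f).choose_spec.2.1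

omit [NeZero N] in
/-- A primitive vanishing at `i∞` is unique. -/
theorem primitive_unique {F G g : ℍ → ℂ} (hF : IsPrimitive F g) (hG : IsPrimitive G g)
    (hF0 : Tendsto F atImInfty (𝓝 0)) (hG0 : Tendsto G atImInfty (𝓝 0)) : F = G := by
  obtain ⟨c, hc⟩ := hF.exists_eq_add hG
  have h : c = 0 := by
    have h1 : Tendsto (fun τ => F τ - G τ) atImInfty (𝓝 (0 - 0)) := hF0.sub hG0
    simp only [hc, add_sub_cancel_left, sub_zero] at h1
    exact tendsto_nhds_unique tendsto_const_nhds h1
  funext τ
  rw [hc τ, h, add_zero]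

/-- The limit at the cusp `0` of the primitive vanishing at `i∞`. -/
theorem tendsto_toZero (f : CuspForm (Gamma0 N) 2) {F : ℍ → ℂ} (hF : IsPrimitive F ⇑f)
    (hF0 : Tendsto F atImInfty (𝓝 0)) :
    Tendsto (fun w : ℍ => F (S • w)) atImInfty (𝓝 (toZero f)) := by
  rw [primitive_unique hF (isPrimitive_prim f) hF0 (tendsto_prim f)]
  obtain ⟨L, hL⟩ := (exists_hasEquivariantPrimitive f).choose_spec.2.2.2 S
  have hL' : Tendsto (fun w : ℍ => prim f (S • w)) atImInfty (𝓝 L) := hL
  rwa [toZero, hL'.limUnder_eq]

theorem toZero_eq {f : CuspForm (Gamma0 N) 2} {F : ℍ → ℂ} (hF : IsPrimitive F ⇑f)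
    (hF0 : Tendsto F atImInfty (𝓝 0)) {L : ℂ}
    (h : Tendsto (fun w : ℍ => F (S • w)) atImInfty (𝓝 L)) : toZero f = L :=
  tendsto_nhds_unique (tendsto_toZero f hF hF0) h

theorem toZero_add (f g : CuspForm (Gamma0 N) 2) : toZero (f + g) = toZero f + toZero g :=
  toZero_eq ((isPrimitive_prim f).add (isPrimitive_prim g))
    (by simpa [Pi.add_def] using (tendsto_prim f).add (tendsto_prim g))
    ((tendsto_toZero f (isPrimitive_prim f) (tendsto_prim f)).add
      (tendsto_toZero g (isPrimitive_prim g) (tendsto_prim g)))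

theorem toZero_smul (c : ℂ) (f : CuspForm (Gamma0 N) 2) : toZero (c • f) = c * toZero f :=
  toZero_eq ((isPrimitive_prim f).const_smul c)
    (by simpa [Pi.smul_def] using (tendsto_prim f).const_mul c)
    ((tendsto_toZero f (isPrimitive_prim f) (tendsto_prim f)).const_mul c)

/-- `f ↦ ∫_{i∞}^0 f(τ) dτ` as a functional. -/
def toZeroDual : Module.Dual ℂ (CuspForm (Gamma0 N) 2) where
  toFun := toZero
  map_add' := toZero_add
  map_smul' c f := by simp [toZero_smul]

/-- `γ ↦ (f ↦` the period of `f` along `γ)`. -/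
def periodDual : Additive (Gamma0 N) →+ Module.Dual ℂ (CuspForm (Gamma0 N) 2) where
  toFun γ :=
    { toFun := fun f => periodMap N f γ
      map_add' := fun f g => by rw [periodMap_add, AddMonoidHom.add_apply]
      map_smul' := fun c f => by rw [periodMap_smul, AddMonoidHom.smul_apply, RingHom.id_apply] }
  map_zero' := LinearMap.ext fun f => map_zero (periodMap N f)
  map_add' γ δ := LinearMap.ext fun f => map_add (periodMap N f) γ δ

theorem periodDual_apply (γ : Additive (Gamma0 N)) (f : CuspForm (Gamma0 N) 2) :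
    periodDual γ f = periodMap N f γ := rfl

theorem toZeroDual_apply (f : CuspForm (Gamma0 N) 2) : toZeroDual f = toZero f := rfl

/-- A finite sum of periods is a period. -/
theorem exists_periodDual_sum {ι : Type*} (s : Finset ι) (δ : ι → Additive (Gamma0 N)) :
    ∃ η, periodDual η = ∑ i ∈ s, periodDual (δ i) := by
  classical
  induction s using Finset.induction_on with
  | empty => exact ⟨0, by rw [Finset.sum_empty, map_zero]⟩
  | insert i s hi ih =>
    obtain ⟨η, hη⟩ := ih
    exact ⟨δ i + η, by rw [Finset.sum_insert hi, map_add, hη]⟩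

end FA.ManinDrinfeld

end
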